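import Fermat.Agent.S48.H888.LayerA
import Fermat.Agent.S29.H42.MAsm

/-!
# S48 / Tower A1 (helper888): abstract assembly of layer M with diamond operators

Port of `S29/H42/MAsm.lean` (helper42) to the nebentypus situation.

Input: an abelian group `A` (in the application: the `ℓ`-torsion of the Jacobian of `X₁(M)` or of
an intermediate curve `X_H`) with a `G_ℚ`-action and two families of operators `T p`, `D p`
(Hecke and diamond operators) commuting with the Galois action, such that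

* every element has an open stabiliser,
* inertia at `p ∤ S` acts trivially,
* every Frobenius at `p ∤ S` satisfies `σ² x - T_p (σ x) + p · D_p x = 0`,
* there is a nonzero simultaneous eigenvector `v ∈ F ⊗ A` with `T_p v = a p • v`,
  `D_p v = δ p • v`, where `p · δ p = e p` in `F`.

Output: `HasFrobModuleDet F S a e`, hence (with `a p = ψ a_p`, `e p = ψ (ε p)`)
`HasFrobModule1 ε f ℓ ψ` and, through LAYER-A', `Top.ResidualStatement`.
-/

set_option autoImplicit false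

noncomputable section

open TensorProduct

namespace Fermat.Agent.S48.H888

open Fermat.Agent.S29 Fermat.Agent.S29.H42 Fermat.Agent.S48.Top

/-- A nonzero smooth `F[G_ℚ]`-module, unramified outside `S`, on which every Frobenius element
at `p ∤ S` satisfies `σ² x - a p • σ x + e p • x = 0`. -/
def HasFrobModuleDet (F : Type) [Field F] (S : ℕ) (a e : ℕ → F) : Prop :=
  ∃ (M : Type) (_ : AddCommGroup M) (_ : Module F M) (ρ : GalQ →* Module.End F M),
    Nontrivial M ∧ IsSmoothRep ρ ∧ IsUnramOutside ρ S ∧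
    ∀ p : ℕ, p.Prime → ¬ p ∣ S → ∀ A : ValuationSubring (AlgebraicClosure ℚ),
      A.LiesOverPrime p → ∀ σ : GalQ, A.IsFrobeniusAt σ p → ∀ x : M,
        ρ σ (ρ σ x) - a p • ρ σ x + e p • x = 0

section asm

variable {F : Type} [Field F] {A : Type} [AddCommGroup A] [DistribMulAction GalQ A]

variable (F) in
/-- The simultaneous eigenspace of the operators `T p`, `D p` (`p` prime, `p ∤ S`). -/
def eigenSub2 (S : ℕ) (a δ : ℕ → F) (T D : ℕ → Module.End ℤ A) : Submodule F (F ⊗[ℤ] A) :=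
  eigenSub F S a T ⊓ eigenSub F S δ D

theorem tensorRep_mem_eigenSub2 {S : ℕ} {a δ : ℕ → F} {T D : ℕ → Module.End ℤ A}
    (hT : ∀ (p : ℕ) (σ : GalQ) (x : A), T p (σ • x) = σ • T p x)
    (hD : ∀ (p : ℕ) (σ : GalQ) (x : A), D p (σ • x) = σ • D p x) (σ : GalQ)
    {v : F ⊗[ℤ] A} (hv : v ∈ eigenSub2 F S a δ T D) :
    tensorRep F A σ v ∈ eigenSub2 F S a δ T D :=
  ⟨tensorRep_mem_eigenSub hT σ hv.1, tensorRep_mem_eigenSub hD σ hv.2⟩

/-- The representation on the simultaneous eigenspace. -/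
def eigenRep2 (S : ℕ) (a δ : ℕ → F) (T D : ℕ → Module.End ℤ A)
    (hT : ∀ (p : ℕ) (σ : GalQ) (x : A), T p (σ • x) = σ • T p x)
    (hD : ∀ (p : ℕ) (σ : GalQ) (x : A), D p (σ • x) = σ • D p x) :
    GalQ →* Module.End F (eigenSub2 F S a δ T D) where
  toFun σ := (tensorRep F A σ).restrict fun _ hv => tensorRep_mem_eigenSub2 hT hD σ hv
  map_one' := by
    ext v
    simp
  map_mul' σ τ := by
    ext v
    simp

@[simp] theorem coe_eigenRep2_apply (S : ℕ) (a δ : ℕ → F) (T D : ℕ → Module.End ℤ A)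
    (hT : ∀ (p : ℕ) (σ : GalQ) (x : A), T p (σ • x) = σ • T p x)
    (hD : ∀ (p : ℕ) (σ : GalQ) (x : A), D p (σ • x) = σ • D p x) (σ : GalQ)
    (v : eigenSub2 F S a δ T D) :
    ((eigenRep2 S a δ T D hT hD σ v : eigenSub2 F S a δ T D) : F ⊗[ℤ] A)
      = tensorRep F A σ v := rfl

/-- The relation `σ² - T σ + p D = 0` passes to `F ⊗ A`. -/
theorem tensorRep_quadratic2 {T D : Module.End ℤ A} (σ : GalQ) (p : ℕ)
    (h : ∀ x : A, σ • σ • x - T (σ • x) + (p : ℤ) • D x = 0) (v : F ⊗[ℤ] A) :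
    tensorRep F A σ (tensorRep F A σ v) - T.baseChange F (tensorRep F A σ v)
      + (p : F) • D.baseChange F v = 0 := by
  induction v using TensorProduct.induction_on with
  | zero => simp
  | tmul f x =>
      simp only [tensorRep_tmul, LinearMap.baseChange_tmul]
      have h1 : (p : F) • (f ⊗ₜ[ℤ] D x) = f ⊗ₜ[ℤ] ((p : ℤ) • D x) := by
        calc (p : F) • (f ⊗ₜ[ℤ] D x) = ((p : F) • f) ⊗ₜ[ℤ] D x := TensorProduct.smul_tmul' _ _ _
          _ = ((p : ℤ) • f) ⊗ₜ[ℤ] D x := by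
              congr 1
              simp [zsmul_eq_mul]
          _ = f ⊗ₜ[ℤ] ((p : ℤ) • D x) := TensorProduct.smul_tmul _ _ _
      rw [h1, ← TensorProduct.tmul_sub, ← TensorProduct.tmul_add, h x, TensorProduct.tmul_zero]
  | add v w hv hw =>
      have : tensorRep F A σ (tensorRep F A σ (v + w)) - T.baseChange F (tensorRep F A σ (v + w))
          + (p : F) • D.baseChange F (v + w)
          = (tensorRep F A σ (tensorRep F A σ v) - T.baseChange F (tensorRep F A σ v)
              + (p : F) • D.baseChange F v)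
            + (tensorRep F A σ (tensorRep F A σ w) - T.baseChange F (tensorRep F A σ w)
              + (p : F) • D.baseChange F w) := by
        simp only [map_add, smul_add]
        abel
      rw [this, hv, hw, add_zero]

/-- **Abstract assembly of layer M with diamond operators.** -/
theorem hasFrobModuleDet_of_eigenvector (S : ℕ) (a δ e : ℕ → F) (T D : ℕ → Module.End ℤ A)
    (hT : ∀ (p : ℕ) (σ : GalQ) (x : A), T p (σ • x) = σ • T p x)
    (hD : ∀ (p : ℕ) (σ : GalQ) (x : A), D p (σ • x) = σ • D p x)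
    (hsmooth : ∀ x : A, ∃ L : IntermediateField ℚ (AlgebraicClosure ℚ), FiniteDimensional ℚ L ∧
      ∀ σ : GalQ, (∀ y ∈ L, σ y = y) → σ • x = x)
    (hunr : ∀ p : ℕ, p.Prime → ¬ p ∣ S → ∀ V : ValuationSubring (AlgebraicClosure ℚ),
      V.LiesOverPrime p → ∀ σ ∈ V.inertiaSubgroupIn ℚ, ∀ x : A, σ • x = x)
    (hfrob : ∀ p : ℕ, p.Prime → ¬ p ∣ S → ∀ V : ValuationSubring (AlgebraicClosure ℚ),
      V.LiesOverPrime p → ∀ σ : GalQ, V.IsFrobeniusAt σ p →
        ∀ x : A, σ • σ • x - T p (σ • x) + (p : ℤ) • D p x = 0)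
    (he : ∀ p : ℕ, p.Prime → ¬ p ∣ S → (p : F) * δ p = e p)
    (hocc : ∃ v : F ⊗[ℤ] A, v ≠ 0 ∧ ∀ p : ℕ, p.Prime → ¬ p ∣ S →
      (T p).baseChange F v = a p • v ∧ (D p).baseChange F v = δ p • v) :
    HasFrobModuleDet F S a e := by
  obtain ⟨v, hv0, hv⟩ := hocc
  have hvmem : v ∈ eigenSub2 F S a δ T D :=
    ⟨fun p hp hS => (hv p hp hS).1, fun p hp hS => (hv p hp hS).2⟩
  refine ⟨eigenSub2 F S a δ T D, inferInstance, inferInstance, eigenRep2 S a δ T D hT hD,
    ?_, ?_, ?_, ?_⟩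
  · exact ⟨⟨⟨v, hvmem⟩, 0, fun h => hv0 (congrArg Subtype.val h)⟩⟩
  · intro x
    obtain ⟨L, hL, hfix⟩ := tensorRep_smooth (F := F) hsmooth (x : F ⊗[ℤ] A)
    exact ⟨L, hL, fun σ hσ => Subtype.ext (hfix σ hσ)⟩
  · intro p hp hS V hV σ hσ
    ext x
    have := tensorRep_eq_one_of_trivial (F := F) σ (hunr p hp hS V hV σ hσ)
    simp [this]
  · intro p hp hS V hV σ hσ x
    apply Subtype.ext
    have h1 := tensorRep_quadratic2 (F := F) σ p (hfrob p hp hS V hV σ hσ) (x : F ⊗[ℤ] A)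
    have h2 := (tensorRep_mem_eigenSub2 hT hD σ x.2).1 p hp hS
    have h3 := x.2.2 p hp hS
    rw [h2, h3, smul_smul, he p hp hS] at h1
    simpa using h1

end asm

/-- From the abstract module to the hypothesis of LAYER-A'. -/
theorem hasFrobModule1_of_det {N : ℕ} [NeZero N] (ε : DirichletCharacter ℂ N)
    (f : CuspForm (CongruenceSubgroup.Gamma1 N) 1) (ℓ : ℕ) {F : Type} [Field F]
    (ψ : Zbar →+* F) (a e : ℕ → Zbar)
    (ha : ∀ p : ℕ, p.Prime → ¬ p ∣ N * ℓ → ((a p : Zbar) : ℂ) = ModularFormClass.qCoeff f p)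
    (he : ∀ p : ℕ, p.Prime → ¬ p ∣ N * ℓ → ((e p : Zbar) : ℂ) = ε (p : ZMod N))
    (h : HasFrobModuleDet F (N * ℓ) (fun p => ψ (a p)) (fun p => ψ (e p))) :
    HasFrobModule1 ε f ℓ ψ := by
  obtain ⟨M, iA, iM, ρ, hnt, hsm, hur, hfq⟩ := h
  exact ⟨M, iA, iM, ρ, hnt, hsm, hur, fun p hp hS =>
    ⟨a p, e p, ha p hp hS, he p hp hS, fun A hA σ hσ x => hfq p hp hS A hA σ hσ x⟩⟩

end Fermat.Agent.S48.H888
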