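import Fermat.Agent.S29.H872.Cyclo

/-!
# S48 / Tower A1, piece LAYER-A' (helper888), part 1: the mod `N` cyclotomic character

`cycloN N : G_ℚ →* (ZMod N)ˣ` for an arbitrary modulus `N ≠ 0`, with

* `cycloN_spec`     : `σ t = t ^ (cycloN N σ).val` for every `t` with `t ^ N = 1`;
* `cycloN_eq_one_of_fixes` : `σ` fixes the `N`-th roots of unity `⟹ cycloN N σ = 1`;
* `cycloN_eq_one_of_mem_inertia` : trivial on inertia at every place over `p ∤ N`;
* `cycloN_frobenius` : `cycloN N τ = p` for a Frobenius element `τ` at a place over `p ∤ N`.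

(The landed `ExtCitation.cycloChar p` / `S55.Bridge` / `S29.H872.Cyclo` treat prime moduli only.)
-/

set_option autoImplicit false

namespace Fermat.Agent.S48.H888

open Fermat.Agent.S55.Bridge Fermat.Agent.S29.H872

/-- The absolute Galois group of `ℚ`. -/
abbrev GalQ : Type := AlgebraicClosure ℚ ≃ₐ[ℚ] AlgebraicClosure ℚ

section valuation

variable {A : ValuationSubring (AlgebraicClosure ℚ)}

/-- A natural number prime to `p` is a unit at every place over `p`. -/
theorem val_natCast_eq_one_of_coprime {p n : ℕ} (hp : A.LiesOverPrime p)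
    (hcop : Nat.Coprime p n) : A.valuation (n : AlgebraicClosure ℚ) = 1 := by
  have hq' : A.valuation (p : AlgebraicClosure ℚ) < 1 := (A.mem_nonunits_iff).mp hp
  have hcop' : IsCoprime (p : ℤ) (n : ℤ) := by
    rw [Int.isCoprime_iff_gcd_eq_one, Int.gcd_natCast_natCast]
    exact hcop
  obtain ⟨u, w, huw⟩ := hcop'
  have h1 : (u : AlgebraicClosure ℚ) * (p : AlgebraicClosure ℚ)
      + (w : AlgebraicClosure ℚ) * (n : AlgebraicClosure ℚ) = 1 := by
    exact_mod_cast congrArg (Int.cast : ℤ → AlgebraicClosure ℚ) huw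
  have hsmall : A.valuation ((u : AlgebraicClosure ℚ) * (p : AlgebraicClosure ℚ)) < 1 := by
    rw [map_mul]
    exact (mul_le_of_le_one_left' (val_intCast_le_one u)).trans_lt hq'
  have hwn : A.valuation ((w : AlgebraicClosure ℚ) * (n : AlgebraicClosure ℚ)) = 1 := by
    have : (w : AlgebraicClosure ℚ) * (n : AlgebraicClosure ℚ)
        = 1 + -((u : AlgebraicClosure ℚ) * (p : AlgebraicClosure ℚ)) := by linear_combination h1
    rw [this, (A.valuation).map_add_eq_of_lt_left
      (by rw [Valuation.map_neg, map_one]; exact hsmall), map_one]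
  rw [map_mul] at hwn
  have hp1 : A.valuation (n : AlgebraicClosure ℚ) ≤ 1 := by
    have := val_intCast_le_one (A := A) (n : ℤ)
    rwa [Int.cast_natCast] at this
  refine le_antisymm hp1 ?_
  calc (1 : A.ValueGroup)
      = A.valuation (w : AlgebraicClosure ℚ) * A.valuation (n : AlgebraicClosure ℚ) := hwn.symm
    _ ≤ 1 * A.valuation (n : AlgebraicClosure ℚ) := mul_le_mul_left (val_intCast_le_one w) _
    _ = A.valuation (n : AlgebraicClosure ℚ) := one_mul _

theorem val_le_one_of_pow_eq_one {n : ℕ} (hn : n ≠ 0) {t : AlgebraicClosure ℚ}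
    (ht : t ^ n = 1) : A.valuation t ≤ 1 := by
  have h : (A.valuation t) ^ n = 1 := by rw [← map_pow, ht, map_one]
  exact ((pow_eq_one_iff.1 h).resolve_right hn).le

end valuation

section cyclo

variable (N : ℕ) [NeZero N]

theorem card_rootsOfUnity_Qbar :
    Nat.card (rootsOfUnity N (AlgebraicClosure ℚ)) = N :=
  IsAlgClosed.card_rootsOfUnity_eq (AlgebraicClosure ℚ) N

/-- The mod `N` cyclotomic character of `G_ℚ`. -/
noncomputable def cycloN : GalQ →* (ZMod N)ˣ :=
  MonoidHom.mk'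
    (fun σ => modularCyclotomicCharacter (AlgebraicClosure ℚ) (card_rootsOfUnity_Qbar N)
      (σ : AlgebraicClosure ℚ ≃+* AlgebraicClosure ℚ))
    (fun a b => by rw [← map_mul]; congr 1)

/-- Defining property of `cycloN`, unit form. -/
theorem cycloN_spec_unit (σ : GalQ) {t : (AlgebraicClosure ℚ)ˣ}
    (ht : t ∈ rootsOfUnity N (AlgebraicClosure ℚ)) :
    σ (t : AlgebraicClosure ℚ)
      = (t : AlgebraicClosure ℚ) ^ ((cycloN N σ : (ZMod N)ˣ) : ZMod N).val :=
  modularCyclotomicCharacter.spec (AlgebraicClosure ℚ) (card_rootsOfUnity_Qbar N)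
    (σ : AlgebraicClosure ℚ ≃+* AlgebraicClosure ℚ) ht

/-- An element with `t ^ N = 1`, as a unit in `rootsOfUnity N`. -/
theorem exists_unit_of_pow_eq_one {t : AlgebraicClosure ℚ} (ht : t ^ N = 1) :
    ∃ u : (AlgebraicClosure ℚ)ˣ, u ∈ rootsOfUnity N (AlgebraicClosure ℚ) ∧
      (u : AlgebraicClosure ℚ) = t := by
  have ht0 : t ≠ 0 := by
    rintro rfl
    rw [zero_pow (NeZero.ne N)] at ht
    exact zero_ne_one ht
  refine ⟨Units.mk0 t ht0, ?_, rfl⟩
  rw [mem_rootsOfUnity]
  apply Units.ext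
  rw [Units.val_pow_eq_pow_val, Units.val_mk0, ht, Units.val_one]

/-- Defining property of `cycloN`. -/
theorem cycloN_spec (σ : GalQ) {t : AlgebraicClosure ℚ} (ht : t ^ N = 1) :
    σ t = t ^ ((cycloN N σ : (ZMod N)ˣ) : ZMod N).val := by
  obtain ⟨u, hu, rfl⟩ := exists_unit_of_pow_eq_one N ht
  exact cycloN_spec_unit N σ hu

/-- Uniqueness: if `σ t = t ^ m` on all `N`-th roots of unity then `cycloN N σ = m`. -/
theorem cycloN_eq_of_forall_pow (σ : GalQ) (m : ℕ)
    (h : ∀ t : AlgebraicClosure ℚ, t ^ N = 1 → σ t = t ^ m) :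
    ((cycloN N σ : (ZMod N)ˣ) : ZMod N) = (m : ZMod N) := by
  have h' := modularCyclotomicCharacter.unique (AlgebraicClosure ℚ) (card_rootsOfUnity_Qbar N)
    (σ : AlgebraicClosure ℚ ≃+* AlgebraicClosure ℚ) (c := (m : ZMod N))
    (fun t ht => by
      have htN : (t : AlgebraicClosure ℚ) ^ N = 1 := by
        have := (mem_rootsOfUnity N t).1 ht
        rw [← Units.val_pow_eq_pow_val, this, Units.val_one]
      have e : (t : AlgebraicClosure ℚ) ^ (m : ZMod N).val = (t : AlgebraicClosure ℚ) ^ m := by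
        rw [ZMod.val_natCast]
        conv_rhs => rw [← Nat.div_add_mod m N]
        rw [pow_add, pow_mul, htN, one_pow, one_mul]
      rw [e]
      exact h _ htN)
  exact h'.symm

/-- If `σ` fixes all `N`-th roots of unity then `cycloN N σ = 1`. -/
theorem cycloN_eq_one_of_fixes (σ : GalQ)
    (hσ : ∀ t : AlgebraicClosure ℚ, t ^ N = 1 → σ t = t) : cycloN N σ = 1 := by
  apply Units.ext
  rw [cycloN_eq_of_forall_pow N σ 1 (fun t ht => by rw [pow_one]; exact hσ t ht)]
  simp

/-- The mod `N` cyclotomic character is unramified at every prime `p ∤ N`. -/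
theorem cycloN_eq_one_of_mem_inertia {p : ℕ} (hp : p.Prime) (hpN : ¬ p ∣ N)
    (A : ValuationSubring (AlgebraicClosure ℚ)) (hA : A.LiesOverPrime p)
    (σ : GalQ) (hσ : σ ∈ A.inertiaSubgroupIn ℚ) : cycloN N σ = 1 := by
  apply cycloN_eq_one_of_fixes
  intro t htp
  by_contra hne
  have hpv := val_natCast_eq_one_of_coprime (A := A) hA
    ((Nat.Prime.coprime_iff_not_dvd hp).2 hpN)
  have hσt : (σ t) ^ N = 1 := by rw [← map_pow, htp, map_one]
  have h1 := val_sub_roots_eq_one (A := A) (NeZero.ne N) hpv hσt htp hne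
  have h2 := inertia_val_sub_lt_one A hσ t (val_le_one_of_pow_eq_one (NeZero.ne N) htp)
  rw [h1] at h2
  exact lt_irrefl _ h2

/-- A Frobenius element at a place over `p ∤ N` raises `N`-th roots of unity to the `p`-th
power. -/
theorem frob_rootN_eq_pow {p : ℕ} (hp : p.Prime) (hpN : ¬ p ∣ N)
    (A : ValuationSubring (AlgebraicClosure ℚ)) (hA : A.LiesOverPrime p)
    (τ : GalQ) (hτ : A.IsFrobeniusAt τ p) {t : AlgebraicClosure ℚ} (htp : t ^ N = 1) :
    τ t = t ^ p := by
  by_contra hne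
  have hpv := val_natCast_eq_one_of_coprime (A := A) hA
    ((Nat.Prime.coprime_iff_not_dvd hp).2 hpN)
  have hσt : (τ t) ^ N = 1 := by rw [← map_pow, htp, map_one]
  have htl : (t ^ p) ^ N = 1 := by rw [← pow_mul, mul_comm, pow_mul, htp, one_pow]
  have h1 := val_sub_roots_eq_one (A := A) (NeZero.ne N) hpv hσt htl hne
  have h2 := frob_val_sub_lt_one A hτ t (val_le_one_of_pow_eq_one (NeZero.ne N) htp)
  rw [h1] at h2
  exact lt_irrefl _ h2

/-- **Cyclotomic character at Frobenius.**  For `p ∤ N` and a Frobenius element `τ` at a place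
over `p`, `cycloN N τ = p`. -/
theorem cycloN_frobenius {p : ℕ} (hp : p.Prime) (hpN : ¬ p ∣ N)
    (A : ValuationSubring (AlgebraicClosure ℚ)) (hA : A.LiesOverPrime p)
    (τ : GalQ) (hτ : A.IsFrobeniusAt τ p) :
    ((cycloN N τ : (ZMod N)ˣ) : ZMod N) = (p : ZMod N) :=
  cycloN_eq_of_forall_pow N τ p (fun _ ht => frob_rootN_eq_pow N hp hpN A hA τ hτ ht)

end cyclo

end Fermat.Agent.S48.H888
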