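import Fermat.Agent.S48.H888.CycloN
import Fermat.Agent.S48.Top.Spec

/-!
# S48 / Tower A1, piece LAYER-A' (helper888), part 2: the Galois character of a Dirichlet character

For `ε : DirichletCharacter ℂ N` and a ring homomorphism `φ : ℤ̄ → F` the character
`galChar ε φ : G_ℚ →* F`, `σ ↦ φ (ε (cycloN N σ))`:

* `galChar_eq_one_of_fixes`       : trivial on `Gal(ℚ̄ / ℚ(μ_N))`;
* `galChar_eq_one_of_mem_inertia` : trivial on inertia at every place over `p ∤ N`;
* `galChar_frobenius`             : `galChar ε φ τ = φ e` for a Frobenius `τ` at a place over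
  `p ∤ N` and every `e : ℤ̄` with `(e : ℂ) = ε p`.
-/

set_option autoImplicit false

namespace Fermat.Agent.S48.H888

open Fermat.Agent.S48.Top

variable {N : ℕ} [NeZero N]

/-- The values of a Dirichlet character are algebraic integers. -/
theorem isIntegral_dirichlet (ε : DirichletCharacter ℂ N) (a : ZMod N) : IsIntegral ℤ (ε a) := by
  by_cases ha : IsUnit a
  · obtain ⟨u, rfl⟩ := ha
    have hcard : 0 < Fintype.card (ZMod N)ˣ := Fintype.card_pos
    have h1 : ε (u : ZMod N) ^ Fintype.card (ZMod N)ˣ = 1 := by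
      rw [← map_pow, ← Units.val_pow_eq_pow_val, pow_card_eq_one, Units.val_one, map_one]
    exact IsIntegral.of_pow hcard (by rw [h1]; exact isIntegral_one)
  · rw [MulChar.map_nonunit ε ha]
    exact isIntegral_zero

/-- The value `ε a` as an algebraic integer. -/
noncomputable def dirichletZbar (ε : DirichletCharacter ℂ N) (a : ZMod N) : Zbar :=
  ⟨ε a, isIntegral_dirichlet ε a⟩

@[simp] theorem coe_dirichletZbar (ε : DirichletCharacter ℂ N) (a : ZMod N) :
    ((dirichletZbar ε a : Zbar) : ℂ) = ε a := rfl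

theorem dirichletZbar_eq (ε : DirichletCharacter ℂ N) (a : ZMod N) {e : Zbar}
    (he : (e : ℂ) = ε a) : dirichletZbar ε a = e :=
  Subtype.ext he.symm

variable {F : Type*} [Field F]

/-- `u ↦ φ (ε u)` as a monoid homomorphism on `(ZMod N)ˣ`. -/
noncomputable def dirichletUnitHom (ε : DirichletCharacter ℂ N) (φ : Zbar →+* F) :
    (ZMod N)ˣ →* F where
  toFun u := φ (dirichletZbar ε (u : ZMod N))
  map_one' := by
    have : dirichletZbar ε ((1 : (ZMod N)ˣ) : ZMod N) = 1 :=
      Subtype.ext (by simp)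
    rw [this, map_one]
  map_mul' u v := by
    have : dirichletZbar ε ((u * v : (ZMod N)ˣ) : ZMod N)
        = dirichletZbar ε (u : ZMod N) * dirichletZbar ε (v : ZMod N) :=
      Subtype.ext (by simp)
    rw [this, map_mul]

/-- The Galois character `σ ↦ φ (ε (χ_N σ))` attached to the Dirichlet character `ε`. -/
noncomputable def galChar (ε : DirichletCharacter ℂ N) (φ : Zbar →+* F) : GalQ →* F :=
  (dirichletUnitHom ε φ).comp (cycloN N)

theorem galChar_apply (ε : DirichletCharacter ℂ N) (φ : Zbar →+* F) (σ : GalQ) :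
    galChar ε φ σ = φ (dirichletZbar ε ((cycloN N σ : (ZMod N)ˣ) : ZMod N)) := rfl

/-- `galChar ε φ` is trivial on automorphisms fixing the `N`-th roots of unity. -/
theorem galChar_eq_one_of_fixes (ε : DirichletCharacter ℂ N) (φ : Zbar →+* F) (σ : GalQ)
    (hσ : ∀ t : AlgebraicClosure ℚ, t ^ N = 1 → σ t = t) : galChar ε φ σ = 1 := by
  unfold galChar
  rw [MonoidHom.comp_apply, cycloN_eq_one_of_fixes N σ hσ, map_one]

/-- `galChar ε φ` is unramified at every prime `p ∤ N`. -/
theorem galChar_eq_one_of_mem_inertia (ε : DirichletCharacter ℂ N) (φ : Zbar →+* F)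
    {p : ℕ} (hp : p.Prime) (hpN : ¬ p ∣ N)
    (A : ValuationSubring (AlgebraicClosure ℚ)) (hA : A.LiesOverPrime p)
    (σ : GalQ) (hσ : σ ∈ A.inertiaSubgroupIn ℚ) : galChar ε φ σ = 1 := by
  unfold galChar
  rw [MonoidHom.comp_apply, cycloN_eq_one_of_mem_inertia N hp hpN A hA σ hσ, map_one]

/-- `galChar ε φ (Frob_p) = φ (ε p)` for `p ∤ N`. -/
theorem galChar_frobenius (ε : DirichletCharacter ℂ N) (φ : Zbar →+* F)
    {p : ℕ} (hp : p.Prime) (hpN : ¬ p ∣ N)
    (A : ValuationSubring (AlgebraicClosure ℚ)) (hA : A.LiesOverPrime p)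
    (τ : GalQ) (hτ : A.IsFrobeniusAt τ p) {e : Zbar} (he : (e : ℂ) = ε (p : ZMod N)) :
    galChar ε φ τ = φ e := by
  rw [galChar_apply, cycloN_frobenius N hp hpN A hA τ hτ, dirichletZbar_eq ε _ he]

/-- The finite set of `N`-th roots of unity in `ℚ̄`. -/
noncomputable def rootsFinset (N : ℕ) : Finset (AlgebraicClosure ℚ) :=
  Polynomial.nthRootsFinset N (1 : AlgebraicClosure ℚ)

theorem mem_rootsFinset {t : AlgebraicClosure ℚ} (ht : t ^ N = 1) : t ∈ rootsFinset N :=
  (Polynomial.mem_nthRootsFinset (Nat.pos_of_ne_zero (NeZero.ne N)) 1).2 ht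

/-- Finite-level form: `galChar ε φ σ = 1` as soon as `σ` fixes the finite set `rootsFinset N`. -/
theorem galChar_eq_one_of_fixes_finset (ε : DirichletCharacter ℂ N) (φ : Zbar →+* F) (σ : GalQ)
    (hσ : ∀ t ∈ rootsFinset N, σ t = t) : galChar ε φ σ = 1 :=
  galChar_eq_one_of_fixes ε φ σ (fun t ht => hσ t (mem_rootsFinset ht))

end Fermat.Agent.S48.H888
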