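/-
S48 / RES (Tower A1) / node IGUSA1, piece **I-DEC** — abstract core (helper888).

Decomposition-group argument of `coord/S48-RES-IGUSA1-helper856.md` §2 (b), (c), (d) and the
`q`-expansion principle (QEP) it yields, in a generic form:

* `L` a field with a finite group `G` acting by ring automorphisms,
* `A0 ⊆ L` a subring of `G`-fixed elements (`A0 = R[x]` or `R[x⁻¹]`), `w ∈ A0`,
* `V : ValuationSubring L` (the Gauss valuation ring), `A0 ⊆ V`.

`QEPOn A0 w V F`  :=  `∀ b ∈ F, b` integral over `A0`, `b / w ∈ V`  ⟹  `b / w` integral over `A0`.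

Main results
* `mem_iff_of_qepOn` : QEP on a subfield `F0` + `w` generates the maximal ideal of `V ∩ F0`
  ⟹ every valuation ring `V'` of `L` with the same Gauss behaviour on `A0` has `V' ∩ F0 = V ∩ F0`
  (uniqueness of the extension of the Gauss valuation to `F0`).
* `exists_mul_stabilizer_of_qepOn` : hence `G = B · D` for `F0 = L^B`, `D = Stab_G(V)`
  (through `Fermat.Agent.Lib.ValConj.exists_mul_mem_stabilizer` of helper168).
* `smul_eq_of_normalClosure_eq_top` : `G = B · D`, `U ⊆ B ∩ D` normalised by `B`, normal closure of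
  `U` everything ⟹ `D = G`.
* `qepOn_univ_of_forall_smul_eq` : `D = G` + `A0` integrally closed in `L^G` + Gauss descent
  (`A0[1/w] ∩ V ∩ L^G ⊆ A0`) ⟹ QEP on the whole of `L`, hence (`QEPOn.mono`) on every subset,
  in particular on every intermediate field.
* `qepOn_univ_of_qepOn_fixed` : the assembled statement.

Mathlib + `Lib/ValConj` only.
-/
import Fermat.Agent.Lib.ValConj.Conj
import Mathlib.RingTheory.IntegralClosure.IsIntegralClosure.Basic
import Mathlib.RingTheory.Algebraic.Integral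
import Mathlib.Algebra.Group.Subgroup.Basic

set_option autoImplicit false

open scoped Pointwise

namespace Fermat.Agent.S48.H888

variable {L : Type*} [Field L]

/-- The `q`-expansion principle on a set `F ⊆ L`: for `b ∈ F` integral over `A0`, if `b / w` lies
in the valuation ring `V` then `b / w` is integral over `A0`. -/
def QEPOn (A0 : Subring L) (w : L) (V : ValuationSubring L) (F : Set L) : Prop :=
  ∀ b ∈ F, IsIntegral A0 b → b * w⁻¹ ∈ V → IsIntegral A0 (b * w⁻¹)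

theorem QEPOn.mono {A0 : Subring L} {w : L} {V : ValuationSubring L} {F F' : Set L}
    (h : QEPOn A0 w V F) (hF : F' ⊆ F) : QEPOn A0 w V F' :=
  fun b hb => h b (hF hb)

/-- Iterated QEP. -/
theorem QEPOn.pow {A0 : Subring L} {w : L} {V : ValuationSubring L} {F0 : Subfield L}
    (h : QEPOn A0 w V F0) (hA0F : ∀ a ∈ A0, a ∈ F0) (hA0V : ∀ a ∈ A0, a ∈ V) (hw : w ∈ A0)
    (k : ℕ) : ∀ b ∈ F0, IsIntegral A0 b → b * (w⁻¹) ^ k ∈ V → IsIntegral A0 (b * (w⁻¹) ^ k) := by
  induction k with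
  | zero => intro b _ hb _; simpa using hb
  | succ k ih =>
    intro b hbF hb hV
    by_cases hw0 : w = 0
    · subst hw0
      simp only [inv_zero, pow_succ, mul_zero]
      exact isIntegral_zero
    have h1 : b * w⁻¹ ∈ V := by
      have : b * w⁻¹ = b * (w⁻¹) ^ (k + 1) * w ^ k := by
        rw [pow_succ, inv_pow]
        field_simp
      rw [this]
      exact V.mul_mem _ _ hV (V.pow_mem (hA0V w hw) k)
    have h2 : IsIntegral A0 (b * w⁻¹) := h b hbF hb h1
    have h3 : b * w⁻¹ ∈ F0 := F0.mul_mem hbF (F0.inv_mem (hA0F w hw))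
    have h4 : b * w⁻¹ * (w⁻¹) ^ k ∈ V := by
      have : b * w⁻¹ * (w⁻¹) ^ k = b * (w⁻¹) ^ (k + 1) := by rw [pow_succ]; ring
      rw [this]; exact hV
    have := ih (b * w⁻¹) h3 h2 h4
    have e : b * (w⁻¹) ^ (k + 1) = b * w⁻¹ * (w⁻¹) ^ k := by rw [pow_succ]; ring
    rw [e]; exact this

/-- **Uniqueness of the extension of the Gauss valuation to `F0`** (one inclusion).
If QEP holds on the subfield `F0`, then `V ∩ F0 ⊆ V'` for every valuation ring `V'` of `L`
containing `A0` in which the `V`-units of `A0` stay units. -/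
theorem mem_of_qepOn {A0 : Subring L} {w : L} {V V' : ValuationSubring L} {F0 : Subfield L}
    (hqep : QEPOn A0 w V F0) (hA0F : ∀ a ∈ A0, a ∈ F0) (hA0V : ∀ a ∈ A0, a ∈ V)
    (hA0V' : ∀ a ∈ A0, a ∈ V') (hw : w ∈ A0) (hw0 : w ≠ 0)
    (halg : ∀ y ∈ F0, IsAlgebraic A0 y)
    (hgauss : ∀ s ∈ A0, s ≠ 0 → ∃ k : ℕ, ∃ s' ∈ A0, s = w ^ k * s' ∧ s'⁻¹ ∈ V)
    (hunit : ∀ s ∈ A0, s⁻¹ ∈ V → s⁻¹ ∈ V')
    {y : L} (hyF : y ∈ F0) (hyV : y ∈ V) : y ∈ V' := by
  obtain ⟨s, hs0, hint⟩ := (halg y hyF).exists_integral_multiple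
  have hsL : (s : L) ≠ 0 := fun h => hs0 (Subtype.ext h)
  obtain ⟨k, s', hs', hss', hs'V⟩ := hgauss (s : L) s.2 hsL
  have hint' : IsIntegral A0 ((s : L) * y) := hint
  have hs'0 : s' ≠ 0 := by
    rintro rfl
    rw [mul_zero] at hss'
    exact hsL hss'
  -- `y * s' = (s * y) * (w⁻¹)^k`
  have e : y * s' = (s : L) * y * (w⁻¹) ^ k := by
    rw [hss', inv_pow]
    field_simp
  have hsyF : (s : L) * y ∈ F0 := F0.mul_mem (hA0F _ s.2) hyF
  have h1 : IsIntegral A0 (y * s') := by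
    rw [e]
    refine hqep.pow hA0F hA0V hw k _ hsyF hint' ?_
    rw [← e]
    exact V.mul_mem _ _ hyV (hA0V s' hs')
  -- integral over `A0 ⊆ V'`, hence in `V'`
  have h2 : y * s' ∈ V' := by
    have hle : A0 ≤ V'.toSubring := fun a ha => hA0V' a ha
    have h3 : IsIntegral V'.toSubring (y * s') := by
      obtain ⟨p, hp, hpx⟩ := h1
      refine ⟨p.map (Subring.inclusion hle), hp.map _, ?_⟩
      rw [Polynomial.eval₂_map]
      exact hpx
    have h4 := (IsIntegrallyClosed.isIntegral_iff (R := V') (K := L)).1 h3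
    obtain ⟨z, hz⟩ := h4
    rw [← hz]
    exact z.2
  have h5 : y = y * s' * s'⁻¹ := by field_simp
  rw [h5]
  exact V'.mul_mem _ _ h2 (hunit s' hs' hs'V)

/-- **Uniqueness of the extension of the Gauss valuation to `F0`.**  QEP on the subfield `F0`,
`w` generating the maximal ideal of `V ∩ F0`, and `V'` a valuation ring of `L` with the same
behaviour on `A0` (contains `A0`, the `V`-units of `A0` stay units, `w` stays a non-unit):
then `V ∩ F0 = V' ∩ F0`. -/
theorem mem_iff_of_qepOn {A0 : Subring L} {w : L} {V V' : ValuationSubring L} {F0 : Subfield L}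
    (hqep : QEPOn A0 w V F0) (hA0F : ∀ a ∈ A0, a ∈ F0) (hA0V : ∀ a ∈ A0, a ∈ V)
    (hA0V' : ∀ a ∈ A0, a ∈ V') (hw : w ∈ A0) (hw0 : w ≠ 0)
    (halg : ∀ y ∈ F0, IsAlgebraic A0 y)
    (hgauss : ∀ s ∈ A0, s ≠ 0 → ∃ k : ℕ, ∃ s' ∈ A0, s = w ^ k * s' ∧ s'⁻¹ ∈ V)
    (hunit : ∀ s ∈ A0, s⁻¹ ∈ V → s⁻¹ ∈ V')
    (hVgen : ∀ f ∈ F0, f ∈ V → f⁻¹ ∉ V → f * w⁻¹ ∈ V)
    (hwV' : w⁻¹ ∉ V')
    {y : L} (hyF : y ∈ F0) : y ∈ V ↔ y ∈ V' := by
  refine ⟨fun hyV => mem_of_qepOn hqep hA0F hA0V hA0V' hw hw0 halg hgauss hunit hyF hyV,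
    fun hyV' => ?_⟩
  by_contra hyV
  have hy0 : y ≠ 0 := by
    rintro rfl
    exact hyV V.zero_mem
  have hinvV : y⁻¹ ∈ V := (V.mem_or_inv_mem y).resolve_left hyV
  have hinvF : y⁻¹ ∈ F0 := F0.inv_mem hyF
  have h1 : y⁻¹ * w⁻¹ ∈ V := hVgen y⁻¹ hinvF hinvV (by rwa [inv_inv])
  have h2 : y⁻¹ * w⁻¹ ∈ F0 := F0.mul_mem hinvF (F0.inv_mem (hA0F w hw))
  have h3 : y⁻¹ * w⁻¹ ∈ V' :=
    mem_of_qepOn hqep hA0F hA0V hA0V' hw hw0 halg hgauss hunit h2 h1
  have h4 : w⁻¹ = y * (y⁻¹ * w⁻¹) := by field_simp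
  exact hwV' (h4 ▸ V'.mul_mem _ _ hyV' h3)

/-! ### The decomposition group: `G = B · D` -/

section action

variable {G : Type*} [Group G] [MulSemiringAction G L]

/-- Everything in `L` is algebraic over `A0` as soon as the `G`-fixed elements are fractions of
elements of `A0` (`G` finite). -/
theorem isAlgebraic_of_fixed_frac [Finite G] {A0 : Subring L}
    (hfrac : ∀ y : L, (∀ g : G, g • y = y) → ∃ a ∈ A0, ∃ s ∈ A0, s ≠ 0 ∧ y * s = a)
    (y : L) : IsAlgebraic A0 y := by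
  classical
  -- `y` is integral over the fixed field
  have h1 : IsIntegral (FixedPoints.subfield G L) y := FixedPoints.isIntegral G L y
  obtain ⟨p, hp, hpy⟩ := h1
  -- the fixed field is algebraic over `A0`
  have h2 : ∀ c : FixedPoints.subfield G L, IsAlgebraic A0 (c : L) := by
    intro c
    obtain ⟨a, ha, s, hs, hs0, hcs⟩ := hfrac (c : L) (fun g => c.2 g)
    refine ⟨Polynomial.C (⟨s, hs⟩ : A0) * Polynomial.X - Polynomial.C (⟨a, ha⟩ : A0), ?_, ?_⟩
    · intro h0
      have := congrArg (fun q => Polynomial.coeff q 1) h0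
      simp only [Polynomial.coeff_sub, Polynomial.coeff_C_mul, Polynomial.coeff_X_one, mul_one,
        Polynomial.coeff_C, one_ne_zero, if_false, sub_zero, Polynomial.coeff_zero] at this
      exact hs0 (congrArg Subtype.val this)
    · simp only [map_sub, map_mul, Polynomial.aeval_C, Polynomial.aeval_X]
      show s * (c : L) - a = 0
      rw [mul_comm, hcs, sub_self]
  -- transitivity, through the algebraic closure `T` of `A0` in `L`
  have hint : IsIntegral (Subalgebra.algebraicClosure A0 L) y := by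
    refine ⟨p.map ((algebraMap (FixedPoints.subfield G L) L).codRestrict
      (Subalgebra.algebraicClosure A0 L) (fun c => h2 c)), hp.map _, ?_⟩
    rw [Polynomial.eval₂_map]
    exact hpy
  exact hint.trans_isAlgebraic (R := A0)

/-- **`G = B · D`** (IGUSA1 step (b)).  `G` finite acting on `L`, `A0` a subring of `G`-fixed
elements, `w ∈ A0`, `V` a valuation ring containing `A0` with `w` a non-unit; `B ≤ G` a subgroup
such that on the fixed field `F0 = L^B`: `w` generates the maximal ideal of `V ∩ F0` and QEP holds.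
Then every `g : G` is `b * d` with `b ∈ B` and `d • V = V`. -/
theorem exists_mul_stabilizer_of_qepOn [Finite G] {A0 : Subring L} {w : L}
    {V : ValuationSubring L} (B : Subgroup G)
    (hfix : ∀ a ∈ A0, ∀ g : G, g • a = a)
    (hA0V : ∀ a ∈ A0, a ∈ V) (hw : w ∈ A0) (hw0 : w ≠ 0) (hwV : w⁻¹ ∉ V)
    (halg : ∀ y : L, (∀ b ∈ B, b • y = y) → IsAlgebraic A0 y)
    (hgauss : ∀ s ∈ A0, s ≠ 0 → ∃ k : ℕ, ∃ s' ∈ A0, s = w ^ k * s' ∧ s'⁻¹ ∈ V)
    (hVgen : ∀ f : L, (∀ b ∈ B, b • f = f) → f ∈ V → f⁻¹ ∉ V → f * w⁻¹ ∈ V)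
    (hqep : QEPOn A0 w V {y | ∀ b ∈ B, b • y = y})
    (g : G) : ∃ b ∈ B, ∃ d : G, d • V = V ∧ g = b * d := by
  classical
  -- the fixed field of `B`
  let F0 : Subfield L := FixedPoints.subfield B L
  have hF0 : ∀ y : L, y ∈ F0 ↔ ∀ b ∈ B, b • y = y := fun y =>
    ⟨fun h b hb => h ⟨b, hb⟩, fun h b => h b.1 b.2⟩
  have hA0F : ∀ a ∈ A0, a ∈ F0 := fun a ha => (hF0 a).2 fun b _ => hfix a ha b
  have hqep' : QEPOn A0 w V F0 := fun b hb => hqep b ((hF0 b).1 hb)
  refine Fermat.Agent.Lib.ValConj.exists_mul_mem_stabilizer V B (fun g x hx => ?_) g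
  have hxF : x ∈ F0 := (hF0 x).2 hx
  refine mem_iff_of_qepOn (V' := g • V) hqep' hA0F hA0V ?_ hw hw0
    (fun y hy => halg y ((hF0 y).1 hy)) hgauss ?_
    (fun f hf => hVgen f ((hF0 f).1 hf)) ?_ hxF
  · intro a ha
    rw [ValuationSubring.mem_pointwise_smul_iff_inv_smul_mem, hfix a ha]
    exact hA0V a ha
  · intro s hs hsV
    rw [ValuationSubring.mem_pointwise_smul_iff_inv_smul_mem, smul_inv'', hfix s hs]
    exact hsV
  · intro h
    rw [ValuationSubring.mem_pointwise_smul_iff_inv_smul_mem, smul_inv'', hfix w hw] at h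
    exact hwV h

/-- **`D = G`** (IGUSA1 step (c), abstract form).  If `G = B · D` (`D` the stabiliser of `V`),
`U ⊆ D` is a subset normalised by `B` whose normal closure is everything, then `D = G`. -/
theorem smul_eq_of_normalClosure_eq_top {V : ValuationSubring L} (B : Subgroup G) (U : Set G)
    (hBD : ∀ g : G, ∃ b ∈ B, ∃ d : G, d • V = V ∧ g = b * d)
    (hU : ∀ u ∈ U, u • V = V)
    (hnorm : ∀ b ∈ B, ∀ u ∈ U, b * u * b⁻¹ ∈ U)
    (hgen : Subgroup.normalClosure U = ⊤) (g : G) : g • V = V := by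
  have hconj : ∀ g : G, ∀ u ∈ U, g * u * g⁻¹ ∈ MulAction.stabilizer G V := by
    intro g u hu
    obtain ⟨b, hb, d, hd, hg⟩ := hBD g⁻¹
    have hg' : g = d⁻¹ * b⁻¹ := by
      rw [← inv_inv g, hg, mul_inv_rev]
    have hd' : d⁻¹ • V = V := by
      conv_lhs => rw [← hd]
      rw [inv_smul_smul]
    have hu' : (b⁻¹ * u * b) • V = V := by
      have := hnorm b⁻¹ (B.inv_mem hb) u hu
      rw [inv_inv] at this
      exact hU _ this
    rw [MulAction.mem_stabilizer_iff]
    have e : g * u * g⁻¹ = d⁻¹ * (b⁻¹ * u * b) * d := by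
      rw [hg']; group
    rw [e, mul_smul, mul_smul, hd, hu', hd']
  have hle : Subgroup.normalClosure U ≤ MulAction.stabilizer G V := by
    rw [Subgroup.normalClosure]
    refine Subgroup.closure_le _ |>.2 ?_
    rintro x hx
    obtain ⟨u, hu, hux⟩ := Group.mem_conjugatesOfSet_iff.1 hx
    obtain ⟨c, rfl⟩ := isConj_iff.1 hux
    exact hconj c u hu
  have : g ∈ MulAction.stabilizer G V := hle (hgen ▸ Subgroup.mem_top g)
  exact MulAction.mem_stabilizer_iff.1 this

/-! ### QEP from `D = G` -/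

/-- Integrality over a subring of fixed elements is preserved by the action. -/
theorem isIntegral_smul_of_fixed {A0 : Subring L} (hfix : ∀ a ∈ A0, ∀ g : G, g • a = a)
    (g : G) {y : L} (hy : IsIntegral A0 y) : IsIntegral A0 (g • y) := by
  obtain ⟨p, hp, hpy⟩ := hy
  refine ⟨p, hp, ?_⟩
  have h1 : (MulSemiringAction.toRingHom G L g).comp (algebraMap A0 L) = algebraMap A0 L := by
    ext a
    exact hfix a a.2 g
  have h2 := congrArg (MulSemiringAction.toRingHom G L g) hpy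
  rw [map_zero, Polynomial.hom_eval₂, h1] at h2
  exact h2

/-- The auxiliary ring `S = {c : all conjugates of c lie in V, and w^n c is integral over A0}`. -/
def stableRing (G : Type*) [Group G] [MulSemiringAction G L] (A0 : Subring L) (w : L)
    (hw : w ∈ A0) (V : ValuationSubring L) : Subring L where
  carrier := {c | (∀ g : G, g • c ∈ V) ∧ ∃ n : ℕ, IsIntegral A0 (w ^ n * c)}
  zero_mem' := ⟨fun g => by rw [smul_zero]; exact V.zero_mem, 0, by
    rw [mul_zero]; exact isIntegral_zero⟩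
  one_mem' := ⟨fun g => by rw [smul_one]; exact V.one_mem, 0, by
    rw [pow_zero, mul_one]; exact isIntegral_one⟩
  add_mem' := by
    rintro a b ⟨ha, n, hn⟩ ⟨hb, m, hm⟩
    have hwint : IsIntegral A0 w := isIntegral_algebraMap (x := (⟨w, hw⟩ : A0))
    refine ⟨fun g => by rw [smul_add]; exact V.add_mem _ _ (ha g) (hb g), n + m, ?_⟩
    have e : w ^ (n + m) * (a + b) = w ^ m * (w ^ n * a) + w ^ n * (w ^ m * b) := by
      rw [pow_add]; ring
    rw [e]
    exact ((hwint.pow m).mul hn).add ((hwint.pow n).mul hm)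
  mul_mem' := by
    rintro a b ⟨ha, n, hn⟩ ⟨hb, m, hm⟩
    refine ⟨fun g => by rw [smul_mul']; exact V.mul_mem _ _ (ha g) (hb g), n + m, ?_⟩
    have e : w ^ (n + m) * (a * b) = (w ^ n * a) * (w ^ m * b) := by
      rw [pow_add]; ring
    rw [e]
    exact hn.mul hm
  neg_mem' := by
    rintro a ⟨ha, n, hn⟩
    refine ⟨fun g => by rw [smul_neg]; exact V.neg_mem _ (ha g), n, ?_⟩
    rw [mul_neg]
    exact hn.neg

theorem mem_stableRing {A0 : Subring L} {w : L} {hw : w ∈ A0} {V : ValuationSubring L} {c : L} :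
    c ∈ stableRing G A0 w hw V ↔ (∀ g : G, g • c ∈ V) ∧ ∃ n : ℕ, IsIntegral A0 (w ^ n * c) :=
  Iff.rfl

theorem smul_mem_stableRing {A0 : Subring L} {w : L} {hw : w ∈ A0} {V : ValuationSubring L}
    (hfix : ∀ a ∈ A0, ∀ g : G, g • a = a) (g : G) {c : L} (hc : c ∈ stableRing G A0 w hw V) :
    g • c ∈ stableRing G A0 w hw V := by
  obtain ⟨h1, n, hn⟩ := hc
  refine ⟨fun g' => by rw [← mul_smul]; exact h1 _, n, ?_⟩
  have := isIntegral_smul_of_fixed hfix g hn
  rwa [smul_mul', smul_pow', hfix w hw g] at this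

/-- **QEP from `D = G`** (IGUSA1 step (d) + Corollary QEP).  `G` finite acting on `L`, `A0` a
subring of fixed elements which is integrally closed in `L^G`, `w ∈ A0`, and `V` a `G`-stable
valuation ring containing `A0` such that `A0[1/w] ∩ V ∩ L^G ⊆ A0` (Gauss).  Then QEP holds on
the whole of `L`. -/
theorem qepOn_univ_of_forall_smul_eq [Finite G] {A0 : Subring L} {w : L}
    {V : ValuationSubring L}
    (hfix : ∀ a ∈ A0, ∀ g : G, g • a = a) (hA0V : ∀ a ∈ A0, a ∈ V) (hw : w ∈ A0)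
    (hclosed : ∀ y : L, (∀ g : G, g • y = y) → IsIntegral A0 y → y ∈ A0)
    (hdesc : ∀ y : L, (∀ g : G, g • y = y) → y ∈ V → (∃ n : ℕ, w ^ n * y ∈ A0) → y ∈ A0)
    (hV : ∀ g : G, g • V = V) : QEPOn A0 w V Set.univ := by
  classical
  intro b _ hb hbV
  by_cases hw0 : w = 0
  · subst hw0
    rw [inv_zero, mul_zero]
    exact isIntegral_zero
  -- the stable ring and its structure
  let S : Subring L := stableRing G A0 w hw V
  have hinv : IsInvariantSubring G S := ⟨fun g _ hx => smul_mem_stableRing hfix g hx⟩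
  let actS : MulSemiringAction G S := IsInvariantSubring.toMulSemiringAction G S
  have hA0S : A0 ≤ S := by
    intro a ha
    refine ⟨fun g => ?_, 0, ?_⟩
    · rw [hfix a ha g]
      exact hA0V a ha
    · rw [pow_zero, one_mul]
      exact isIntegral_algebraMap (x := (⟨a, ha⟩ : A0))
  let algS : Algebra A0 S := (Subring.inclusion hA0S).toAlgebra
  have hsmulS : ∀ (g : G) (s : S), ((g • s : S) : L) = g • (s : L) := fun _ _ => rfl
  have halg : ∀ a : A0, ((algebraMap A0 S a : S) : L) = (a : L) := fun _ => rfl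
  have hInv : Algebra.IsInvariant A0 S G := ⟨fun s hs => by
    have hsfix : ∀ g : G, g • (s : L) = (s : L) := fun g => by
      rw [← hsmulS, hs g]
    obtain ⟨h1, n, hn⟩ := s.2
    have h2 : (s : L) ∈ V := by
      have := h1 1
      rwa [one_smul] at this
    have h3 : w ^ n * (s : L) ∈ A0 := by
      refine hclosed _ (fun g => ?_) hn
      rw [smul_mul', smul_pow', hfix w hw g, hsfix g]
    have h4 : (s : L) ∈ A0 := hdesc _ hsfix h2 ⟨n, h3⟩
    exact ⟨⟨(s : L), h4⟩, Subtype.ext rfl⟩⟩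
  have hIntS : Algebra.IsIntegral A0 S := Algebra.IsInvariant.isIntegral A0 S G
  -- `b / w ∈ S`
  have hmem : b * w⁻¹ ∈ S := by
    refine ⟨fun g => ?_, 1, ?_⟩
    · have h1 : g • (b * w⁻¹) ∈ g • V :=
        (ValuationSubring.smul_mem_pointwise_smul_iff).2 hbV
      rwa [hV g] at h1
    · have : w ^ 1 * (b * w⁻¹) = b := by
        rw [pow_one]; field_simp
      rw [this]; exact hb
  obtain ⟨p, hp, hpx⟩ := hIntS.isIntegral (⟨b * w⁻¹, hmem⟩ : S)
  refine ⟨p, hp, ?_⟩
  have h5 := congrArg S.subtype hpx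
  rw [map_zero, Polynomial.hom_eval₂] at h5
  exact h5

/-- Gauss descent from the Gauss lemma in `A0`: if `w V ∩ A0 = w A0`, then
`A0[1/w] ∩ V ⊆ A0`. -/
theorem desc_of_gauss {A0 : Subring L} {w : L} {V : ValuationSubring L}
    (hA0V : ∀ a ∈ A0, a ∈ V) (hw : w ∈ A0) (hw0 : w ≠ 0)
    (hgl : ∀ a ∈ A0, a * w⁻¹ ∈ V → a * w⁻¹ ∈ A0)
    (y : L) (hyV : y ∈ V) (hy : ∃ n : ℕ, w ^ n * y ∈ A0) : y ∈ A0 := by
  obtain ⟨n, hn⟩ := hy
  induction n with
  | zero => simpa using hn
  | succ n ih =>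
    apply ih
    have h1 : w ^ (n + 1) * y * w⁻¹ = w ^ n * y := by
      rw [pow_succ]; field_simp
    have h2 : w ^ (n + 1) * y * w⁻¹ ∈ V := by
      rw [h1]
      exact V.mul_mem _ _ (V.pow_mem (hA0V w hw) n) hyV
    have := hgl _ hn h2
    rwa [h1] at this

/-- **I-DEC, assembled.**  Let the finite group `G` act on the field `L`; let `A0 ⊆ L^G` be a
subring (`= R[x]`), integrally closed in `L^G`, over which `L` is algebraic, `w ∈ A0`, `w ≠ 0`,
and `V` a valuation ring of `L` containing `A0` in which `w` is not a unit, with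
* (Gauss) every nonzero `s ∈ A0` is `w^k s'` with `s' ∈ A0` a unit of `V`, and `w V ∩ A0 = w A0`;
* (level `Γ₀`) a subgroup `B ≤ G` such that on `L^B` the element `w` generates the maximal ideal
  of `V` and QEP holds (this is what Tower A / S28 gives for `F₀(M)`);
* (unipotent trick) a subset `U ⊆ G` of elements stabilising `V`, normalised by `B`, whose
  normal closure is `G`.
Then `V` is `G`-stable and QEP holds on the whole of `L` (hence on every intermediate field). -/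
theorem qepOn_univ_of_qepOn_fixed [Finite G] {A0 : Subring L} {w : L}
    {V : ValuationSubring L} (B : Subgroup G) (U : Set G)
    (hfix : ∀ a ∈ A0, ∀ g : G, g • a = a)
    (hA0V : ∀ a ∈ A0, a ∈ V) (hw : w ∈ A0) (hw0 : w ≠ 0) (hwV : w⁻¹ ∉ V)
    (halg : ∀ y : L, IsAlgebraic A0 y)
    (hclosed : ∀ y : L, (∀ g : G, g • y = y) → IsIntegral A0 y → y ∈ A0)
    (hgauss : ∀ s ∈ A0, s ≠ 0 → ∃ k : ℕ, ∃ s' ∈ A0, s = w ^ k * s' ∧ s'⁻¹ ∈ V)
    (hgl : ∀ a ∈ A0, a * w⁻¹ ∈ V → a * w⁻¹ ∈ A0)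
    (hVgen : ∀ f : L, (∀ b ∈ B, b • f = f) → f ∈ V → f⁻¹ ∉ V → f * w⁻¹ ∈ V)
    (hqep : QEPOn A0 w V {y | ∀ b ∈ B, b • y = y})
    (hU : ∀ u ∈ U, u • V = V)
    (hnorm : ∀ b ∈ B, ∀ u ∈ U, b * u * b⁻¹ ∈ U)
    (hgen : Subgroup.normalClosure U = ⊤) :
    (∀ g : G, g • V = V) ∧ QEPOn A0 w V Set.univ := by
  have hBD := exists_mul_stabilizer_of_qepOn B hfix hA0V hw hw0 hwV (fun y _ => halg y)
    hgauss hVgen hqep
  have hD : ∀ g : G, g • V = V := smul_eq_of_normalClosure_eq_top B U hBD hU hnorm hgen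
  exact ⟨hD, qepOn_univ_of_forall_smul_eq hfix hA0V hw hclosed
    (fun y _ hyV hy => desc_of_gauss hA0V hw hw0 hgl y hyV hy) hD⟩

/-- QEP for an intermediate field `F ⊆ L` (with the restricted valuation ring), in the
elementwise shape of `S18/Alg/Spec.lean` (`qep_fin`, `qep_inf`). -/
theorem qep_subfield_of_qepOn_univ {A0 : Subring L} {w : L} {V : ValuationSubring L}
    (h : QEPOn A0 w V Set.univ) (F : Subfield L) (hwF : w ∈ F) :
    ∀ b : L, b ∈ F ∧ IsIntegral A0 b → b * w⁻¹ ∈ V → b * w⁻¹ ∈ F ∧ IsIntegral A0 (b * w⁻¹) :=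
  fun b hb hbV => ⟨F.mul_mem hb.1 (F.inv_mem hwF), h b (Set.mem_univ b) hb.2 hbV⟩

end action

/-! ### Transport of QEP along a field embedding -/

section transport

variable {Ω : Type*} [Field Ω]

/-- Integrality over `A0'` is equivalent to integrality of the image over the image subring,
for a ring homomorphism of fields. -/
theorem isIntegral_map_iff (φ : Ω →+* L) (A0' : Subring Ω) (b : Ω) :
    IsIntegral (A0'.map φ) (φ b) ↔ IsIntegral A0' b := by
  have hinj : Function.Injective φ := φ.injective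
  -- the isomorphism `A0' ≃ A0'.map φ`
  let e : A0' →+* A0'.map φ :=
    (φ.comp A0'.subtype).codRestrict (A0'.map φ) (fun a => ⟨a, a.2, rfl⟩)
  have he : ∀ a : A0', ((e a : A0'.map φ) : L) = φ (a : Ω) := fun _ => rfl
  have hsurj : Function.Surjective e := by
    rintro ⟨y, a, ha, rfl⟩
    exact ⟨⟨a, ha⟩, Subtype.ext rfl⟩
  have hcomp : (algebraMap (A0'.map φ) L).comp e = φ.comp (algebraMap A0' Ω) := by
    ext a; rfl
  constructor
  · rintro ⟨p, hp, hpb⟩
    obtain ⟨q, hq, -, hqm⟩ := Polynomial.lifts_and_degree_eq_and_monic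
      ((Polynomial.mem_lifts p).2 (Polynomial.map_surjective e hsurj p)) hp
    refine ⟨q, hqm, ?_⟩
    apply hinj
    rw [map_zero, Polynomial.hom_eval₂, ← hcomp, ← Polynomial.eval₂_map, hq]
    exact hpb
  · rintro ⟨q, hq, hqb⟩
    refine ⟨q.map e, hq.map e, ?_⟩
    rw [Polynomial.eval₂_map, hcomp, ← Polynomial.hom_eval₂, hqb, map_zero]

/-- **Transport of QEP.**  QEP on `F' ⊆ Ω` (elementwise shape of `S18/Alg/Spec.lean`, with a
subring `V'`) gives `QEPOn` for the images under a field embedding `φ : Ω → L`, for any valuation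
ring `V` of `L` whose trace on `φ(F' · w⁻¹)` is contained in `φ(V')`. -/
theorem qepOn_map (φ : Ω →+* L) {A0' V' : Subring Ω} {w' : Ω} {F' : Set Ω}
    (hqep : ∀ b ∈ F', IsIntegral A0' b → b * w'⁻¹ ∈ V' → IsIntegral A0' (b * w'⁻¹))
    (V : ValuationSubring L) (hV : ∀ b ∈ F', φ (b * w'⁻¹) ∈ V → b * w'⁻¹ ∈ V') :
    QEPOn (A0'.map φ) (φ w') V (φ '' F') := by
  rintro _ ⟨b, hb, rfl⟩ hint hbV
  have e : φ b * (φ w')⁻¹ = φ (b * w'⁻¹) := by rw [map_mul, map_inv₀]
  rw [e] at hbV ⊢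
  rw [isIntegral_map_iff] at hint ⊢
  exact hqep b hb hint (hV b hb hbV)

/-- Converse transport: `QEPOn` in `L` gives QEP in `Ω` (elementwise shape). -/
theorem qep_of_qepOn_map (φ : Ω →+* L) {A0' V' : Subring Ω} {w' : Ω} {F' : Set Ω}
    {V : ValuationSubring L} (h : QEPOn (A0'.map φ) (φ w') V (φ '' F'))
    (hV : ∀ b ∈ F', b * w'⁻¹ ∈ V' → φ (b * w'⁻¹) ∈ V) :
    ∀ b ∈ F', IsIntegral A0' b → b * w'⁻¹ ∈ V' → IsIntegral A0' (b * w'⁻¹) := by
  intro b hb hint hbV
  have e : φ b * (φ w')⁻¹ = φ (b * w'⁻¹) := by rw [map_mul, map_inv₀]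
  have h1 := h (φ b) ⟨b, hb, rfl⟩ ((isIntegral_map_iff φ A0' b).2 hint)
    (by rw [e]; exact hV b hb hbV)
  rw [e] at h1
  exact (isIntegral_map_iff φ A0' _).1 h1

end transport

end Fermat.Agent.S48.H888
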