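import Fermat.Agent.S48.H888.GalChar
import Fermat.Agent.S29.H872.Cheb
import Fermat.Agent.S29.Orb

/-!
# S48 / Tower A1, piece LAYER-A' (helper888), part 3: from a Galois module to `ResidualStatement`

Layer A of row S29 (`S29/H872`, helper872) with the cyclotomic determinant replaced by an
arbitrary determinant character, then specialised to the Galois character of a Dirichlet
character.

* `exists_residualGaloisRep_of_module_det` : abstract glue (determinant `d : G_ℚ →* F`).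
* `ModHyp1 ε f ℓ ψ`        : the module hypothesis (finite-dimensional form);
* `HasFrobModule1 ε f ℓ ψ` : the module hypothesis (smooth form, as produced by a torsion module);
* `residual_of_modHyp`     : one prime `ℓ`, any field `k` of characteristic `ℓ`;
* `residualStatement_of_modHyp`, `residualStatement_of_frobModule` :
  `ModStatement → Top.ResidualStatement`, `FrobModuleStatement → Top.ResidualStatement`.

So Tower A1 only has to produce, for every large `ℓ`, every algebraically closed field `F` of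
characteristic `ℓ` and every `ψ : ℤ̄ → F`, a NONZERO smooth `F[G_ℚ]`-module, unramified outside
`N ℓ`, on which every Frobenius element at `p ∤ N ℓ` satisfies `σ² - ψ(a_p) σ + ψ(ε(p)) = 0`.
-/

set_option autoImplicit false

namespace Fermat.Agent.S48.H888

open Polynomial Fermat.Agent.S48.Top Fermat.Agent.S29.H872

/-- **Glue with an arbitrary determinant character.**  `F` algebraically closed, `M` a nonzero
finite dimensional `F[G_ℚ]`-module of finite level, unramified outside `S`; `d : G_ℚ →* F` a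
character of finite level, unramified outside `S`, with `d (Frob_ℓ) = e ℓ`; every Frobenius at
`ℓ ∉ S` satisfies `σ² - c(ℓ) σ + e(ℓ) = 0` on `M`.  Then there is a `ResidualGaloisRep F`,
unramified outside `S`, with `charpoly (ρ Frob_ℓ) = X² - c(ℓ) X + e(ℓ)`. -/
theorem exists_residualGaloisRep_of_module_det
    {F : Type} [Field F] [IsAlgClosed F]
    {M : Type} [AddCommGroup M] [Module F M] [FiniteDimensional F M] [Nontrivial M]
    (r : GalQ →* Module.End F M) (hfin : GaloisFactorsThroughFiniteLevel r)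
    (d : GalQ →* F) (s₁ : Finset (AlgebraicClosure ℚ))
    (hdlevel : ∀ σ : GalQ, (∀ t ∈ s₁, σ t = t) → d σ = 1)
    (S : Finset ℕ) (c e : ℕ → F)
    (hunr : ∀ ℓ : ℕ, ℓ.Prime → ℓ ∉ S → ∀ A : ValuationSubring (AlgebraicClosure ℚ),
      A.LiesOverPrime ℓ → ∀ σ ∈ A.inertiaSubgroupIn ℚ, r σ = 1)
    (hdunr : ∀ ℓ : ℕ, ℓ.Prime → ℓ ∉ S → ∀ A : ValuationSubring (AlgebraicClosure ℚ),
      A.LiesOverPrime ℓ → ∀ σ ∈ A.inertiaSubgroupIn ℚ, d σ = 1)
    (hdfrob : ∀ ℓ : ℕ, ℓ.Prime → ℓ ∉ S → ∀ A : ValuationSubring (AlgebraicClosure ℚ),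
      A.LiesOverPrime ℓ → ∀ σ : GalQ, A.IsFrobeniusAt σ ℓ → d σ = e ℓ)
    (hES : ∀ ℓ : ℕ, ℓ.Prime → ℓ ∉ S → ∀ A : ValuationSubring (AlgebraicClosure ℚ),
      A.LiesOverPrime ℓ → ∀ σ : GalQ, A.IsFrobeniusAt σ ℓ →
        r σ * r σ = c ℓ • r σ - e ℓ • 1)
    (hCheb : WeakCheb) :
    ∃ ρ : ResidualGaloisRep F,
      (∀ ℓ : ℕ, ℓ.Prime → ℓ ∉ S → ρ.IsUnramifiedAt ℓ) ∧
      ∀ ℓ : ℕ, ℓ.Prime → ℓ ∉ S → ∀ A : ValuationSubring (AlgebraicClosure ℚ),
        A.LiesOverPrime ℓ → ∀ σ : GalQ, A.IsFrobeniusAt σ ℓ →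
          LinearMap.charpoly (ρ.ρ σ) = X ^ 2 - C (c ℓ) * X + C (e ℓ) := by
  classical
  obtain ⟨L₀, hL₀fd, hL₀⟩ := hfin
  have := hL₀fd
  obtain ⟨s₀, hs₀⟩ := exists_finset_level L₀
  -- the quadratic relation for every element of the Galois group
  have hall : ∀ σ : GalQ, ∃ a' : F, r σ * r σ = a' • r σ - d σ • 1 := by
    intro σ
    obtain ⟨q, A, τ, j, hq, hqS, hA, hτ, hagree⟩ := hCheb (s₀ ∪ s₁) σ S
    have h0 : ∀ x ∈ L₀, (τ ^ j) x = σ x :=
      hs₀ _ _ (fun x hx => hagree x (Finset.mem_union_left _ hx))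
    have hfix : ∀ x : AlgebraicClosure ℚ, (τ ^ j) x = σ x → (σ⁻¹ * τ ^ j) x = x := by
      intro x hx
      rw [AlgEquiv.mul_apply, hx]
      exact σ.symm_apply_apply x
    have hr : r σ = r τ ^ j := by
      have h1 : r (σ⁻¹ * τ ^ j) = 1 := hL₀ _ (fun x hx => hfix x (h0 x hx))
      have h2 : r σ * r (σ⁻¹ * τ ^ j) = r τ ^ j := by
        rw [← map_mul, mul_inv_cancel_left, map_pow]
      rw [h1, mul_one] at h2
      exact h2
    have hd : d σ = d τ ^ j := by
      have h1 : d (σ⁻¹ * τ ^ j) = 1 :=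
        hdlevel _ (fun t ht => hfix t (hagree t (Finset.mem_union_right _ ht)))
      have h2 : d σ * d (σ⁻¹ * τ ^ j) = d τ ^ j := by
        rw [← map_mul, mul_inv_cancel_left, map_pow]
      rw [h1, mul_one] at h2
      exact h2
    have hτrel := hES q hq hqS A hA τ hτ
    have hdτ : d τ = e q := hdfrob q hq hqS A hA τ hτ
    obtain ⟨a', ha'⟩ := exists_pow_rel hτrel j
    exact ⟨a', by rw [hr, hd, hdτ]; exact ha'⟩
  choose a ha using hall
  obtain ⟨V, iA, iM, iFin, ρ, hfr, htriv, hchar⟩ := exists_two_dim r d a ha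
  -- the level of `ρ`
  have hint : ∀ x ∈ (s₁ : Set (AlgebraicClosure ℚ)), IsIntegral ℚ x := fun x _ =>
    (AlgebraicClosure.isAlgebraic ℚ).isIntegral.isIntegral x
  have : FiniteDimensional ℚ (IntermediateField.adjoin ℚ (s₁ : Set (AlgebraicClosure ℚ))) :=
    IntermediateField.finiteDimensional_adjoin hint
  have hlevel : GaloisFactorsThroughFiniteLevel ρ := by
    refine ⟨L₀ ⊔ IntermediateField.adjoin ℚ (s₁ : Set (AlgebraicClosure ℚ)), inferInstance,
      fun σ hσ => htriv σ (hL₀ σ fun x hx => hσ x ?_) (hdlevel σ fun t ht => hσ t ?_)⟩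
    · exact (le_sup_left : L₀ ≤ _) hx
    · exact (le_sup_right : IntermediateField.adjoin ℚ (s₁ : Set (AlgebraicClosure ℚ)) ≤ _)
        (IntermediateField.subset_adjoin ℚ _ ht)
  refine ⟨@ResidualGaloisRep.mk F _ V iA iM hfr ρ hlevel, ?_, ?_⟩
  · intro ℓ hℓ hℓS A hA σ hσ
    exact htriv σ (hunr ℓ hℓ hℓS A hA σ hσ) (hdunr ℓ hℓ hℓS A hA σ hσ)
  · intro ℓ hℓ hℓS A hA σ hσ
    have hdσ : d σ = e ℓ := hdfrob ℓ hℓ hℓS A hA σ hσ
    have h := hchar σ (c ℓ) (by rw [hdσ]; exact hES ℓ hℓ hℓS A hA σ hσ)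
    rw [hdσ] at h
    exact h

/-! ### The module hypotheses -/

section hyp

variable {N : ℕ} [NeZero N]

/-- **MOD₁, finite-dimensional form.**  A nonzero finite dimensional `F[G_ℚ]`-module of finite
level, unramified outside `N ℓ`, on which every Frobenius element at `p ∤ N ℓ` satisfies
`σ² - ψ(a_p) σ + ψ(ε(p)) = 0`. -/
def ModHyp1 (ε : DirichletCharacter ℂ N) (f : CuspForm (CongruenceSubgroup.Gamma1 N) 1) (ℓ : ℕ)
    {F : Type} [Field F] (ψ : Zbar →+* F) : Prop :=
  ∃ (M : Type) (_ : AddCommGroup M) (_ : Module F M) (_ : FiniteDimensional F M)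
    (_ : Nontrivial M) (r : GalQ →* Module.End F M),
    GaloisFactorsThroughFiniteLevel r ∧
    (∀ p : ℕ, p.Prime → ¬ p ∣ N * ℓ → ∀ A : ValuationSubring (AlgebraicClosure ℚ),
      A.LiesOverPrime p → ∀ σ ∈ A.inertiaSubgroupIn ℚ, r σ = 1) ∧
    (∀ p : ℕ, p.Prime → ¬ p ∣ N * ℓ →
      ∃ a e : Zbar, (a : ℂ) = ModularFormClass.qCoeff f p ∧ (e : ℂ) = ε (p : ZMod N) ∧
        ∀ A : ValuationSubring (AlgebraicClosure ℚ), A.LiesOverPrime p →
          ∀ σ : GalQ, A.IsFrobeniusAt σ p → r σ * r σ = ψ a • r σ - ψ e • 1)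

/-- **MOD₁, smooth form** (the output of a torsion-module layer).  A nonzero smooth
`F[G_ℚ]`-module, unramified outside `N ℓ`, on which every Frobenius element at `p ∤ N ℓ`
satisfies `σ² x - ψ(a_p) σ x + ψ(ε(p)) x = 0`. -/
def HasFrobModule1 (ε : DirichletCharacter ℂ N) (f : CuspForm (CongruenceSubgroup.Gamma1 N) 1)
    (ℓ : ℕ) {F : Type} [Field F] (ψ : Zbar →+* F) : Prop :=
  ∃ (M : Type) (_ : AddCommGroup M) (_ : Module F M) (ρ : GalQ →* Module.End F M),
    Nontrivial M ∧ Fermat.Agent.S29.IsSmoothRep ρ ∧ Fermat.Agent.S29.IsUnramOutside ρ (N * ℓ) ∧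
    (∀ p : ℕ, p.Prime → ¬ p ∣ N * ℓ →
      ∃ a e : Zbar, (a : ℂ) = ModularFormClass.qCoeff f p ∧ (e : ℂ) = ε (p : ZMod N) ∧
        ∀ A : ValuationSubring (AlgebraicClosure ℚ), A.LiesOverPrime p →
          ∀ σ : GalQ, A.IsFrobeniusAt σ p → ∀ x : M,
            ρ σ (ρ σ x) - ψ a • ρ σ x + ψ e • x = 0)

omit [NeZero N] in
/-- The smooth form implies the finite-dimensional form. -/
theorem modHyp1_of_hasFrobModule1 {ε : DirichletCharacter ℂ N}
    {f : CuspForm (CongruenceSubgroup.Gamma1 N) 1} {ℓ : ℕ} {F : Type} [Field F]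
    {ψ : Zbar →+* F} (h : HasFrobModule1 ε f ℓ ψ) : ModHyp1 ε f ℓ ψ := by
  obtain ⟨M, _, _, ρ, hnt, hsm, hur, hfq⟩ := h
  obtain ⟨W, hW0, hWfin, hWst, L, hL, hLfix⟩ :=
    Fermat.Agent.S29.exists_finite_stable_submodule ρ hsm
  let r : GalQ →* Module.End F W :=
    { toFun := fun σ => (ρ σ).restrict (hWst σ)
      map_one' := by
        ext x
        simp
      map_mul' := fun σ τ => by
        ext x
        simp [LinearMap.restrict_apply] }
  have hr : ∀ (σ : GalQ) (x : W), ((r σ x : W) : M) = ρ σ (x : M) := fun _ _ => rfl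
  have : Nontrivial W := (Submodule.nontrivial_iff_ne_bot).mpr hW0
  refine ⟨W, inferInstance, inferInstance, hWfin, inferInstance, r, ⟨L, hL, ?_⟩, ?_, ?_⟩
  · intro σ hσ
    ext x
    rw [hr, hLfix σ hσ x x.2]
    rfl
  · intro p hp hS A hA σ hσ
    ext x
    rw [hr, hur p hp hS A hA σ hσ]
    rfl
  · intro p hp hS
    obtain ⟨a, e, ha, he, hrel⟩ := hfq p hp hS
    refine ⟨a, e, ha, he, fun A hA σ hσ => ?_⟩
    have h0 := hrel A hA σ hσ
    ext x
    have h1 := h0 (x : M)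
    simp only [LinearMap.sub_apply, Module.End.mul_apply, LinearMap.smul_apply,
      Module.End.one_apply, Submodule.coe_sub, Submodule.coe_smul, hr]
    rw [sub_add_eq_add_sub, sub_eq_zero] at h1
    rw [eq_sub_iff_add_eq, h1]

end hyp

/-! ### From the module to the residual representation -/

section final

variable {N : ℕ} [NeZero N]

/-- **One prime, algebraically closed coefficients, general form.** -/
theorem residual_of_modHyp_field (ε : DirichletCharacter ℂ N)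
    (f : CuspForm (CongruenceSubgroup.Gamma1 N) 1) {ℓ : ℕ} (hℓ : ℓ.Prime)
    {k : Type} [Field k] (φ : Zbar →+* k)
    {F : Type} [Field F] [IsAlgClosed F] (ψ : Zbar →+* F) (ι : F →+* k)
    (hι : ∀ a, ι (ψ a) = φ a) (hMod : ModHyp1 ε f ℓ ψ) :
    ∃ ρ : ResidualGaloisRep k,
      ∀ p : ℕ, p.Prime → ¬ p ∣ N * ℓ → ρ.IsUnramifiedAt p ∧
        ∀ A : ValuationSubring (AlgebraicClosure ℚ), A.LiesOverPrime p →
          ∀ σ : GalQ, A.IsFrobeniusAt σ p →
            ∃ a e : Zbar, (a : ℂ) = ModularFormClass.qCoeff f p ∧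
              (e : ℂ) = ε (p : ZMod N) ∧
              LinearMap.charpoly (ρ.ρ σ) =
                Polynomial.X ^ 2 - Polynomial.C (φ a) * Polynomial.X + Polynomial.C (φ e) := by
  classical
  obtain ⟨M, iA, iM, iFD, iNT, r, hfin, hunr, hES⟩ := hMod
  have hNℓ : N * ℓ ≠ 0 := Nat.mul_ne_zero (NeZero.ne N) hℓ.ne_zero
  let S : Finset ℕ := (N * ℓ).primeFactors
  have hS : ∀ p : ℕ, p.Prime → (p ∉ S ↔ ¬ p ∣ N * ℓ) := fun p hp => by
    simp only [S, Nat.mem_primeFactors, not_and, not_not]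
    constructor
    · intro h hd
      exact hNℓ (h hp hd)
    · intro h _ hd
      exact absurd hd h
  have hSN : ∀ p : ℕ, ¬ p ∣ N * ℓ → ¬ p ∣ N := fun p h hd => h (Dvd.dvd.mul_right hd ℓ)
  let c : ℕ → F := fun p =>
    if h : ∃ a : Zbar, (a : ℂ) = ModularFormClass.qCoeff f p then ψ h.choose else 0
  have hc : ∀ (p : ℕ) (a : Zbar), (a : ℂ) = ModularFormClass.qCoeff f p → c p = ψ a := by
    intro p a ha
    have h : ∃ a : Zbar, (a : ℂ) = ModularFormClass.qCoeff f p := ⟨a, ha⟩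
    simp only [c, dif_pos h]
    congr 1
    exact Subtype.ext (h.choose_spec.trans ha.symm)
  let e : ℕ → F := fun p => ψ (dirichletZbar ε (p : ZMod N))
  have he : ∀ (p : ℕ) (b : Zbar), (b : ℂ) = ε (p : ZMod N) → e p = ψ b := by
    intro p b hb
    simp only [e]
    rw [dirichletZbar_eq ε _ hb]
  obtain ⟨ρ₀, hρunr, hρchar⟩ := exists_residualGaloisRep_of_module_det r hfin
    (galChar ε ψ) (rootsFinset N) (galChar_eq_one_of_fixes_finset ε ψ) S c e
    (fun p hp hpS => hunr p hp ((hS p hp).1 hpS))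
    (fun p hp hpS A hA σ hσ =>
      galChar_eq_one_of_mem_inertia ε ψ hp (hSN p ((hS p hp).1 hpS)) A hA σ hσ)
    (fun p hp hpS A hA σ hσ =>
      galChar_frobenius ε ψ hp (hSN p ((hS p hp).1 hpS)) A hA σ hσ rfl)
    (fun p hp hpS A hA σ hσ => by
      obtain ⟨a, b, ha, hb, hrel⟩ := hES p hp ((hS p hp).1 hpS)
      rw [hc p a ha, he p b hb]
      exact hrel A hA σ hσ) weakCheb
  refine ⟨ρ₀.baseChangeAlong ι, fun p hp hpS => ⟨?_, ?_⟩⟩
  · intro A hA σ hσ
    have h := hρunr p hp ((hS p hp).2 hpS) A hA σ hσ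
    let _ : Algebra F k := ι.toAlgebra
    change (ρ₀.ρ σ).baseChange k = 1
    rw [h, LinearMap.baseChange_one]
  · intro A hA σ hσ
    obtain ⟨a, b, ha, hb, -⟩ := hES p hp hpS
    refine ⟨a, b, ha, hb, ?_⟩
    have h := hρchar p hp ((hS p hp).2 hpS) A hA σ hσ
    rw [hc p a ha, he p b hb] at h
    let _ : Algebra F k := ι.toAlgebra
    change LinearMap.charpoly ((ρ₀.ρ σ).baseChange k) = _
    rw [LinearMap.charpoly_baseChange, h]
    simp only [Polynomial.map_add, Polynomial.map_sub, Polynomial.map_mul, Polynomial.map_pow,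
      Polynomial.map_X, Polynomial.map_C]
    rw [show (algebraMap F k) (ψ a) = φ a from hι a, show (algebraMap F k) (ψ b) = φ b from hι b]

/-- **One prime `ℓ`, any field `k` of characteristic `ℓ`.** -/
theorem residual_of_modHyp (ε : DirichletCharacter ℂ N)
    (f : CuspForm (CongruenceSubgroup.Gamma1 N) 1) {ℓ : ℕ} (hℓ : ℓ.Prime)
    {k : Type} [Field k] [CharP k ℓ] (φ : Zbar →+* k)
    (hMod : ∀ (F : Type) [Field F] [IsAlgClosed F] [CharP F ℓ] (ψ : Zbar →+* F),
      ModHyp1 ε f ℓ ψ) :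
    ∃ ρ : ResidualGaloisRep k,
      ∀ p : ℕ, p.Prime → ¬ p ∣ N * ℓ → ρ.IsUnramifiedAt p ∧
        ∀ A : ValuationSubring (AlgebraicClosure ℚ), A.LiesOverPrime p →
          ∀ σ : GalQ, A.IsFrobeniusAt σ p →
            ∃ a e : Zbar, (a : ℂ) = ModularFormClass.qCoeff f p ∧
              (e : ℂ) = ε (p : ZMod N) ∧
              LinearMap.charpoly (ρ.ρ σ) =
                Polynomial.X ^ 2 - Polynomial.C (φ a) * Polynomial.X + Polynomial.C (φ e) := by
  have := isAlgClosed_imageField hℓ φ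
  have hchar : CharP (imageField hℓ φ) ℓ :=
    (imageField hℓ φ).subtype.charP (imageField hℓ φ).subtype.injective ℓ
  exact residual_of_modHyp_field ε f hℓ φ (toImageField hℓ φ) (imageField hℓ φ).subtype
    (fun a => coe_toImageField hℓ φ a) (hMod _ _)

end final

/-! ### The statements consumed / produced by the row -/

/-- **MOD (finite-dimensional form)**: what a Tower-A1 construction has to deliver. -/
def ModStatement : Prop :=
  ∀ (N : ℕ) [NeZero N] (ε : DirichletCharacter ℂ N) (f : CuspForm (CongruenceSubgroup.Gamma1 N) 1),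
    IsEigen N ε f → ∃ B : ℕ, ∀ ℓ : ℕ, ℓ.Prime → B < ℓ →
      ∀ (F : Type) [Field F] [IsAlgClosed F] [CharP F ℓ] (ψ : Zbar →+* F), ModHyp1 ε f ℓ ψ

/-- **MOD (smooth form)**: what a Tower-A1 torsion-module layer has to deliver. -/
def FrobModuleStatement : Prop :=
  ∀ (N : ℕ) [NeZero N] (ε : DirichletCharacter ℂ N) (f : CuspForm (CongruenceSubgroup.Gamma1 N) 1),
    IsEigen N ε f → ∃ B : ℕ, ∀ ℓ : ℕ, ℓ.Prime → B < ℓ →
      ∀ (F : Type) [Field F] [IsAlgClosed F] [CharP F ℓ] (ψ : Zbar →+* F),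
        HasFrobModule1 ε f ℓ ψ

/-- **LAYER A'**: `ModStatement → Top.ResidualStatement`. -/
theorem residualStatement_of_modHyp (h : ModStatement) : ResidualStatement := by
  intro N _ ε f hf
  obtain ⟨B, hB⟩ := h N ε f hf
  refine ⟨B, fun ℓ hℓ hBℓ k _ _ φ => ?_⟩
  exact residual_of_modHyp ε f hℓ φ (fun F _ _ _ ψ => hB ℓ hℓ hBℓ F ψ)

/-- **LAYER A'**: `FrobModuleStatement → Top.ResidualStatement`. -/
theorem residualStatement_of_frobModule (h : FrobModuleStatement) : ResidualStatement :=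
  residualStatement_of_modHyp (fun N _ ε f hf => by
    obtain ⟨B, hB⟩ := h N ε f hf
    exact ⟨B, fun ℓ hℓ hBℓ F _ _ _ ψ => modHyp1_of_hasFrobModule1 (hB ℓ hℓ hBℓ F ψ)⟩)

end Fermat.Agent.S48.H888
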